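import Mathlib.FieldTheory.Minpoly.IsConjRoot
import Mathlib.FieldTheory.Normal.Defs
import Mathlib.RingTheory.Polynomial.Vieta
import Mathlib.RingTheory.Valuation.ValuationSubring
import Mathlib.Algebra.Polynomial.Lifts
import Mathlib.RingTheory.IntegralClosure.IsIntegralClosure.Basic

/-!
# Cell A2, route G — obligation C3 COVER-RED (helper652), Mathlib only

Setting: `L / F` a finite normal extension (the Kummer cover of the function field `F` of the
model), `C → F` the base chart (integrally closed in `F`), `w ∈ C` the uniformiser of the base,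
`Sh` the set of *sheets*: valuation subrings of `L` (the valuation rings of the generic points of
the components of the special fibre of the cover), stable under `Gal(L/F)`.

Inputs:
* `he`    : every sheet is unramified over the base, `𝔪_W = w W` (obligation C2, `e = 1`);
* `hbase` : the special fibre of the base chart is reduced and its components are (images of)
            sheets: `a ∈ C`, `a ∈ 𝔪_W` for all sheets `W` `⇒` `a ∈ w C`.

Output (`coverRed`): the special fibre of the cover chart (= integral closure of `C` in `L`) is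
reduced with the sheets as components:
`b` integral over `C`, `b ∈ 𝔪_W` for all sheets `W` `⇒` `b = w t` with `t` integral over `C`.
This is `hred_mid / hred_fin / hred_inf` of `A2.H12.wallG` (`coverRed_subalgebra`).

Proof: the conjugates of `t = b / w` lie in every sheet (by `he`), so the coefficients of the
minimal polynomial of `t` over `F` lie in `W ∩ F` for every sheet and become integral over `C`
after multiplication by a power of `w`; `hbase` peels off the powers of `w`.
-/

set_option autoImplicit false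

namespace Fermat.Agent.A2.H652

open Polynomial

section General

variable {C F L : Type*} [CommRing C] [Field F] [Field L] [Algebra C F] [Algebra F L]
  [Algebra C L] [IsScalarTower C F L]

/-- If the coefficients of the minimal polynomial of `t` over `F` come from `C`, then `t` is
integral over `C`. -/
theorem isIntegral_of_minpoly_coeff_mem {t : L} (ht : IsIntegral F t)
    (h : ∀ k, (minpoly F t).coeff k ∈ (algebraMap C F).range) : IsIntegral C t := by
  have hl : minpoly F t ∈ lifts (algebraMap C F) := by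
    rw [lifts_iff_coeff_lifts]
    intro k
    exact h k
  obtain ⟨q, hq, -, hqm⟩ := lifts_and_natDegree_eq_and_monic hl (minpoly.monic ht)
  refine ⟨q, hqm, ?_⟩
  have h1 : eval₂ (algebraMap C L) t q = eval₂ (algebraMap F L) t (q.map (algebraMap C F)) := by
    rw [eval₂_map, IsScalarTower.algebraMap_eq C F L]
  rw [h1, hq]
  exact minpoly.aeval F t

/-- **Integrality from the conjugates.**  `L / F` normal, `A` a subring of `L` containing all
conjugates of `t`, with `A ∩ F ⊆ C`: then `t` is integral over `C`. -/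
theorem isIntegral_of_conj_mem_subring [Normal F L] (A : Subring L)
    (hA : ∀ c : F, algebraMap F L c ∈ A → c ∈ (algebraMap C F).range)
    (t : L) (ht : ∀ σ : L ≃ₐ[F] L, σ t ∈ A) : IsIntegral C t := by
  have hint : IsIntegral F t := Normal.isIntegral inferInstance t
  have hsplit : ((minpoly F t).map (algebraMap F L)).Splits := Normal.splits inferInstance t
  have hmonic : ((minpoly F t).map (algebraMap F L)).Monic := (minpoly.monic hint).map _
  have hroots : ∀ β ∈ ((minpoly F t).map (algebraMap F L)).roots, β ∈ A := by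
    intro β hβ
    have h0 : aeval β (minpoly F t) = 0 := by
      have := (mem_roots'.1 hβ).2
      rwa [IsRoot.def, eval_map_algebraMap] at this
    obtain ⟨σ, hσ⟩ := isConjRoot_iff_exists_algEquiv.1 (isConjRoot_of_aeval_eq_zero hint h0)
    have h1 : β = σ.symm t := by rw [← hσ]; simp
    rw [h1]
    exact ht σ.symm
  refine isIntegral_of_minpoly_coeff_mem hint (fun k => hA _ ?_)
  have hc : algebraMap F L ((minpoly F t).coeff k) =
      ((minpoly F t).map (algebraMap F L)).coeff k := by rw [coeff_map]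
  rw [hc]
  by_cases hk : k ≤ ((minpoly F t).map (algebraMap F L)).natDegree
  · rw [coeff_eq_esymm_roots_of_splits hsplit hk, hmonic.leadingCoeff, one_mul]
    refine A.mul_mem (A.pow_mem (A.neg_mem A.one_mem) _) ?_
    rw [Multiset.esymm]
    refine A.multiset_sum_mem _ (fun x hx => ?_)
    obtain ⟨s, hs, rfl⟩ := Multiset.mem_map.1 hx
    refine A.multiset_prod_mem _ (fun y hy => hroots y ?_)
    exact Multiset.mem_of_le (Multiset.mem_powersetCard.1 hs).1 hy
  · rw [coeff_eq_zero_of_natDegree_lt (not_le.1 hk)]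
    exact A.zero_mem

end General

section Val

variable {L : Type*} [Field L]

/-- `𝔪_W` absorbs `W`. -/
theorem mul_mem_nonunits_right (W : ValuationSubring L) {x y : L} (hx : x ∈ W.nonunits)
    (hy : y ∈ W) : x * y ∈ W.nonunits := by
  obtain ⟨hxW, hxm⟩ := W.mem_nonunits_iff_exists_mem_maximalIdeal.1 hx
  refine W.mem_nonunits_iff_exists_mem_maximalIdeal.2 ⟨mul_mem hxW hy, ?_⟩
  exact Ideal.mul_mem_right (⟨y, hy⟩ : W) _ hxm

/-- `𝔪_W` absorbs `W`. -/
theorem mul_mem_nonunits_left (W : ValuationSubring L) {x y : L} (hx : x ∈ W)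
    (hy : y ∈ W.nonunits) : x * y ∈ W.nonunits := by
  rw [mul_comm]
  exact mul_mem_nonunits_right W hy hx

theorem mem_of_mem_nonunits (W : ValuationSubring L) {x : L} (hx : x ∈ W.nonunits) : x ∈ W :=
  (W.mem_nonunits_iff_exists_mem_maximalIdeal.1 hx).1

/-- The maximal ideal of the pull-back of a valuation ring by a field automorphism. -/
theorem mem_nonunits_comap_iff (W : ValuationSubring L) (σ : L ≃+* L) (x : L) :
    x ∈ (W.comap (σ : L →+* L)).nonunits ↔ σ x ∈ W.nonunits := by
  rw [ValuationSubring.mem_nonunits_iff_or, ValuationSubring.mem_nonunits_iff_or,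
    ValuationSubring.mem_comap]
  simp

end Val

section Cover

variable {C F L : Type*} [CommRing C] [Field F] [Field L] [Algebra C F] [Algebra F L]
  [Algebra C L] [IsScalarTower C F L]

/-- The auxiliary subring of `L`: elements lying in every sheet which become integral over the
chart after multiplication by a power of `w`. -/
def redSubring (C : Type*) [CommRing C] [Algebra C L] (w : C) (Sh : Set (ValuationSubring L)) :
    Subring L where
  carrier := {x | (∀ W ∈ Sh, x ∈ W) ∧ ∃ k : ℕ, IsIntegral C (algebraMap C L w ^ k * x)}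
  mul_mem' := by
    rintro x y ⟨hx, j, hxj⟩ ⟨hy, k, hyk⟩
    refine ⟨fun W hW => mul_mem (hx W hW) (hy W hW), j + k, ?_⟩
    have : algebraMap C L w ^ (j + k) * (x * y) =
        (algebraMap C L w ^ j * x) * (algebraMap C L w ^ k * y) := by ring
    rw [this]
    exact hxj.mul hyk
  one_mem' := ⟨fun W _ => one_mem W, 0, by simpa using isIntegral_one⟩
  add_mem' := by
    rintro x y ⟨hx, j, hxj⟩ ⟨hy, k, hyk⟩
    refine ⟨fun W hW => add_mem (hx W hW) (hy W hW), j + k, ?_⟩
    have : algebraMap C L w ^ (j + k) * (x + y) =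
        algebraMap C L w ^ k * (algebraMap C L w ^ j * x) +
          algebraMap C L w ^ j * (algebraMap C L w ^ k * y) := by ring
    rw [this]
    exact ((isIntegral_algebraMap.pow k).mul hxj).add ((isIntegral_algebraMap.pow j).mul hyk)
  zero_mem' := ⟨fun W _ => zero_mem W, 0, by simpa using isIntegral_zero⟩
  neg_mem' := by
    rintro x ⟨hx, j, hxj⟩
    refine ⟨fun W hW => neg_mem (hx W hW), j, ?_⟩
    rw [mul_neg]
    exact hxj.neg

theorem mem_redSubring (w : C) (Sh : Set (ValuationSubring L)) (x : L) :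
    x ∈ redSubring C w Sh ↔
      (∀ W ∈ Sh, x ∈ W) ∧ ∃ k : ℕ, IsIntegral C (algebraMap C L w ^ k * x) := Iff.rfl

/-- **Peeling.**  `c ∈ F` lies in every sheet, `w ^ k * c` lies in the chart `C`, the special
fibre of `C` is reduced with components among the sheets: then `c ∈ C`. -/
theorem mem_range_of_pow_mul_mem (w : C) (hw0 : algebraMap C F w ≠ 0)
    (Sh : Set (ValuationSubring L))
    (hwM : ∀ W ∈ Sh, algebraMap C L w ∈ W.nonunits)
    (hbase : ∀ a : C, (∀ W ∈ Sh, algebraMap C L a ∈ W.nonunits) → ∃ t : C, a = w * t)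
    (k : ℕ) (c : F) (hcW : ∀ W ∈ Sh, algebraMap F L c ∈ W)
    (hc : algebraMap C F w ^ k * c ∈ (algebraMap C F).range) : c ∈ (algebraMap C F).range := by
  induction k with
  | zero => simpa using hc
  | succ k ih =>
    obtain ⟨a, ha⟩ := hc
    have haM : ∀ W ∈ Sh, algebraMap C L a ∈ W.nonunits := by
      intro W hW
      have h1 : algebraMap C L a =
          algebraMap C L w * (algebraMap C L w ^ k * algebraMap F L c) := by
        rw [IsScalarTower.algebraMap_apply C F L a, ha, IsScalarTower.algebraMap_apply C F L w]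
        simp only [map_mul, map_pow]
        ring
      rw [h1]
      exact mul_mem_nonunits_right W (hwM W hW)
        (mul_mem (pow_mem (mem_of_mem_nonunits W (hwM W hW)) k) (hcW W hW))
    obtain ⟨t, rfl⟩ := hbase a haM
    apply ih
    refine ⟨t, ?_⟩
    apply mul_left_cancel₀ hw0
    rw [← map_mul, ha]
    ring

/-- **C3 COVER-RED.**  See the header of this file. -/
theorem coverRed [Normal F L]
    (hC : ∀ x : F, IsIntegral C x → x ∈ (algebraMap C F).range)
    (w : C) (hw0 : algebraMap C F w ≠ 0)
    (Sh : Set (ValuationSubring L))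
    (hΓ : ∀ σ : L ≃ₐ[F] L, ∀ W ∈ Sh, ∃ W' ∈ Sh, ∀ x ∈ W'.nonunits, σ x ∈ W.nonunits)
    (hwM : ∀ W ∈ Sh, algebraMap C L w ∈ W.nonunits)
    (he : ∀ W ∈ Sh, ∀ x ∈ W.nonunits, ∃ t ∈ W, x = algebraMap C L w * t)
    (hbase : ∀ a : C, (∀ W ∈ Sh, algebraMap C L a ∈ W.nonunits) → ∃ t : C, a = w * t)
    (b : L) (hb : IsIntegral C b) (hbM : ∀ W ∈ Sh, b ∈ W.nonunits) :
    ∃ t : L, IsIntegral C t ∧ b = algebraMap C L w * t := by
  have hwL : algebraMap C L w ≠ 0 := by
    rw [IsScalarTower.algebraMap_apply C F L]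
    exact (_root_.map_ne_zero _).2 hw0
  have hσw : ∀ σ : L ≃ₐ[F] L, σ (algebraMap C L w) = algebraMap C L w := by
    intro σ
    rw [IsScalarTower.algebraMap_apply C F L]
    exact σ.commutes _
  refine ⟨b / algebraMap C L w, ?_, by field_simp⟩
  refine isIntegral_of_conj_mem_subring (F := F) (redSubring C w Sh) ?_ _ ?_
  · -- `A ∩ F ⊆ C`
    rintro c ⟨hcW, k, hck⟩
    refine mem_range_of_pow_mul_mem w hw0 Sh hwM hbase k c hcW (hC _ ?_)
    have h1 : algebraMap C L w ^ k * algebraMap F L c =
        algebraMap F L (algebraMap C F w ^ k * c) := by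
      rw [IsScalarTower.algebraMap_apply C F L w]
      simp only [map_mul, map_pow]
    rw [h1] at hck
    exact (isIntegral_algebraMap_iff (algebraMap F L).injective).1 hck
  · -- the conjugates of `b / w`
    intro σ
    have hσb : σ (b / algebraMap C L w) = σ b / algebraMap C L w := by
      rw [map_div₀, hσw]
    rw [hσb]
    refine ⟨fun W hW => ?_, 1, ?_⟩
    · have h1 : σ b ∈ W.nonunits := by
        obtain ⟨W', hW', h⟩ := hΓ σ W hW
        exact h b (hbM W' hW')
      obtain ⟨t, ht, htb⟩ := he W hW _ h1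
      rw [htb, mul_div_cancel_left₀ _ hwL]
      exact ht
    · rw [pow_one, mul_div_cancel₀ _ hwL]
      exact hb.map σ

/-- `coverRed` for a `Gal(L/F)`-stable set of sheets (stability in `comap` form). -/
theorem coverRed_comap [Normal F L]
    (hC : ∀ x : F, IsIntegral C x → x ∈ (algebraMap C F).range)
    (w : C) (hw0 : algebraMap C F w ≠ 0)
    (Sh : Set (ValuationSubring L))
    (hΓ : ∀ σ : L ≃ₐ[F] L, ∀ W ∈ Sh, W.comap ((σ : L ≃+* L) : L →+* L) ∈ Sh)
    (hwM : ∀ W ∈ Sh, algebraMap C L w ∈ W.nonunits)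
    (he : ∀ W ∈ Sh, ∀ x ∈ W.nonunits, ∃ t ∈ W, x = algebraMap C L w * t)
    (hbase : ∀ a : C, (∀ W ∈ Sh, algebraMap C L a ∈ W.nonunits) → ∃ t : C, a = w * t)
    (b : L) (hb : IsIntegral C b) (hbM : ∀ W ∈ Sh, b ∈ W.nonunits) :
    ∃ t : L, IsIntegral C t ∧ b = algebraMap C L w * t :=
  coverRed hC w hw0 Sh
    (fun σ W hW => ⟨_, hΓ σ W hW, fun x hx => (mem_nonunits_comap_iff W (σ : L ≃+* L) x).1 hx⟩)
    hwM he hbase b hb hbM

/-- **C3 in the shape of `hred_mid / hred_fin / hred_inf` of `A2.H12.wallG`.**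
`R` the base ring, `C` the base chart (an `R`-algebra inside `F`, integrally closed in `F`),
`B` the cover chart (`= ` integral closure of `C` in `L`, as an `R`-subalgebra of `L`),
sheets `s ↦ Ws s` with `M s = 𝔪_{Ws s}`. -/
theorem coverRed_chart {R S : Type*} [CommRing R] [Algebra R C] [Algebra R L]
    [IsScalarTower R C L] [Normal F L]
    (hC : ∀ x : F, IsIntegral C x → x ∈ (algebraMap C F).range)
    (w : R) (hw0 : algebraMap C F (algebraMap R C w) ≠ 0)
    (Ws : S → ValuationSubring L) (M : S → AddSubgroup L)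
    (hM : ∀ s x, x ∈ M s ↔ x ∈ (Ws s).nonunits)
    (hΓ : ∀ σ : L ≃ₐ[F] L, ∀ s, ∃ s', ∀ x ∈ M s', σ x ∈ M s)
    (hwM : ∀ s, algebraMap R L w ∈ M s)
    (he : ∀ s, ∀ x ∈ M s, ∃ t ∈ Ws s, x = algebraMap R L w * t)
    (hbase : ∀ a : C, (∀ s, algebraMap C L a ∈ M s) → ∃ t : C, a = algebraMap R C w * t)
    (B : Subalgebra R L) (hB : ∀ x, x ∈ B ↔ IsIntegral C x) :
    ∀ b ∈ B, (∀ s, b ∈ M s) → ∃ t ∈ B, b = algebraMap R L w * t := by
  intro b hb hbM
  have hwRL : algebraMap R L w = algebraMap C L (algebraMap R C w) :=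
    IsScalarTower.algebraMap_apply R C L w
  obtain ⟨t, ht, hbt⟩ := coverRed (F := F) hC (algebraMap R C w) hw0 (Set.range Ws)
    (by
      rintro σ _ ⟨s, rfl⟩
      obtain ⟨s', hs'⟩ := hΓ σ s
      exact ⟨Ws s', ⟨s', rfl⟩, fun x hx => (hM s _).1 (hs' x ((hM s' x).2 hx))⟩)
    (by
      rintro _ ⟨s, rfl⟩
      rw [← hwRL]
      exact (hM s _).1 (hwM s))
    (by
      rintro _ ⟨s, rfl⟩ x hx
      rw [← hwRL]
      exact he s x ((hM s x).2 hx))
    (fun a ha => hbase a (fun s => (hM s _).2 (ha _ ⟨s, rfl⟩)))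
    b ((hB b).1 hb) (by
      rintro _ ⟨s, rfl⟩
      exact (hM s b).1 (hbM s))
  exact ⟨t, (hB t).2 ht, by rw [hwRL]; exact hbt⟩

end Cover

end Fermat.Agent.A2.H652
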