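import Fermat.Agent.A2.H12.GLemmas
import Fermat.Agent.A2.H652.CoverRed

/-!
# Cell A2, route G — leaf RED, cover step (helper652)

`redConclusion_of_baseRed` : for a finite normal cover `L / F`, the conclusion `RedConclusion L w x`
of the leaf RED follows from
* `BaseRed w x` : the same statement for the three charts of `F` itself (reduced special fibre of
  the base, every component is a sheet), and
* `SheetsConclusion L w x` (only the fields `unif` (`e = 1`) and `exists_over` are used).
-/

set_option autoImplicit false

namespace Fermat.Agent.A2.H652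

open Fermat.Agent.A2.H12
open Fermat.Agent.S18.H138 (chart mem_chart)

universe u

section Tower

variable {R : Type*} [CommRing R] {F : Type*} [Field F] [Algebra R F]
variable {L : Type*} [Field L] [Algebra F L] [Algebra R L] [IsScalarTower R F L]

/-- Integrality over `R[T]` inside `L` (for `T ⊆ F`) is integrality over the subalgebra `R[T]`
of `F`. -/
theorem isIntegral_adjoin_of_isIntegral_adjoin_image (T : Set F) {y : L}
    (hy : IsIntegral (Algebra.adjoin R (algebraMap F L '' T)) y) :
    IsIntegral (Algebra.adjoin R T) y := by
  let f : F →ₐ[R] L := IsScalarTower.toAlgHom R F L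
  have hf : Function.Injective f := (algebraMap F L).injective
  have hmap : (Algebra.adjoin R T).map f = Algebra.adjoin R (algebraMap F L '' T) :=
    AlgHom.map_adjoin f T
  let e : Algebra.adjoin R T ≃ₐ[R] Algebra.adjoin R (algebraMap F L '' T) :=
    ((Algebra.adjoin R T).equivMapOfInjective f hf).trans (Subalgebra.equivOfEq _ _ hmap)
  have he : ∀ a, ((e a : Algebra.adjoin R (algebraMap F L '' T)) : L) = algebraMap F L (a : F) :=
    fun a => rfl
  have := IsIntegral.map_of_comp_eq (R := Algebra.adjoin R (algebraMap F L '' T)) (S := L)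
    (T := Algebra.adjoin R T) (U := L) (e.symm : _ →+* _) (RingHom.id L) (by
      ext a
      have := he (e.symm a)
      rw [AlgEquiv.apply_symm_apply] at this
      exact this.symm) hy
  simpa using this

/-- Converse of `isIntegral_adjoin_of_isIntegral_adjoin_image`. -/
theorem isIntegral_adjoin_image_of_isIntegral_adjoin (T : Set F) {y : L}
    (hy : IsIntegral (Algebra.adjoin R T) y) :
    IsIntegral (Algebra.adjoin R (algebraMap F L '' T)) y := by
  let f : F →ₐ[R] L := IsScalarTower.toAlgHom R F L
  have hf : Function.Injective f := (algebraMap F L).injective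
  have hmap : (Algebra.adjoin R T).map f = Algebra.adjoin R (algebraMap F L '' T) :=
    AlgHom.map_adjoin f T
  let e : Algebra.adjoin R T ≃ₐ[R] Algebra.adjoin R (algebraMap F L '' T) :=
    ((Algebra.adjoin R T).equivMapOfInjective f hf).trans (Subalgebra.equivOfEq _ _ hmap)
  have := IsIntegral.map_of_comp_eq (R := Algebra.adjoin R T) (S := L)
    (T := Algebra.adjoin R (algebraMap F L '' T)) (U := L) (e : _ →+* _) (RingHom.id L) (by
      ext a
      rfl) hy
  simpa using this

end Tower

section Main

variable {R : Type u} [CommRing R] {F : Type u} [Field F] [Algebra R F]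
variable {L : Type u} [Field L] [Algebra F L] [Algebra R L] [IsScalarTower R F L]

/-- **Base RED**: the special fibre of each of the three charts of `F` is reduced and all its
components are sheets.  (This is `RedConclusion` for the trivial cover `L = F`.) -/
def BaseRed (w : R) (x : F) : Prop :=
  ∀ T : Set F, T = {x} ∨ T = {x⁻¹} ∨ T = {x, x⁻¹} →
    ∀ a ∈ chart R T, (∀ V : ValuationSubring F, IsSheet w x V → a ∈ V.nonunits) →
      ∃ t ∈ chart R T, a = algebraMap R F w * t

/-- RED for the chart of `L` over one chart `R[T]` of `F`. -/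
theorem red_of_baseRed_aux [Normal F L] (w : R) (x : F) (hw0 : algebraMap R F w ≠ 0)
    (hS : SheetsConclusion L w x) (T : Set F)
    (hbase : ∀ a ∈ chart R T, (∀ V : ValuationSubring F, IsSheet w x V → a ∈ V.nonunits) →
      ∃ t ∈ chart R T, a = algebraMap R F w * t)
    (b : L) (hb : b ∈ chart R (algebraMap F L '' T))
    (hbM : ∀ W : ValuationSubring L, IsSheet w (algebraMap F L x) W → b ∈ W.nonunits) :
    ∃ t ∈ chart R (algebraMap F L '' T), b = algebraMap R L w * t := by
  -- the base chart, as an algebra over `A = R[T]`
  have hwC : algebraMap R F w ∈ integralClosure (Algebra.adjoin R T) F :=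
    isIntegral_algebraMap (R := Algebra.adjoin R T) (x := algebraMap R (Algebra.adjoin R T) w)
  have hCL : ∀ c : integralClosure (Algebra.adjoin R T) F,
      algebraMap (integralClosure (Algebra.adjoin R T) F) L c = algebraMap F L (c : F) :=
    fun _ => rfl
  have hwL : algebraMap (integralClosure (Algebra.adjoin R T) F) L ⟨algebraMap R F w, hwC⟩ =
      algebraMap R L w := by
    rw [hCL, ← IsScalarTower.algebraMap_apply]
  obtain ⟨t, ht, hbt⟩ := coverRed (C := integralClosure (Algebra.adjoin R T) F) (F := F) (L := L)
    (fun y hy => ⟨⟨y, isIntegral_trans y hy⟩, rfl⟩)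
    ⟨algebraMap R F w, hwC⟩ hw0
    {W | IsSheet w (algebraMap F L x) W}
    (by
      intro σ W hW
      have hσR : ∀ r : R, (σ : L ≃+* L) (algebraMap R L r) =
          algebraMap R L ((RingEquiv.refl R) r) := by
        intro r
        have h1 : (σ : L ≃+* L) (algebraMap R L r) = σ (algebraMap F L (algebraMap R F r)) := by
          rw [IsScalarTower.algebraMap_apply R F L]
          rfl
        rw [h1, σ.commutes, ← IsScalarTower.algebraMap_apply]
        rfl
      refine ⟨W.comap ((σ : L ≃+* L) : L →+* L),
        IsSheet.comap hW (σ : L ≃+* L) (RingEquiv.refl R) hσR (fun _ => Iff.rfl)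
          (σ.commutes x), ?_⟩
      intro y hy
      exact (mem_nonunits_comap W ((σ : L ≃+* L) : L →+* L) y).1 hy)
    (by
      intro W hW
      rw [hwL]
      exact hW.2.2.1)
    (by
      intro W hW y hy
      rw [hwL]
      exact hS.unif W hW y hy)
    (by
      intro a ha
      obtain ⟨t, ht, hat⟩ := hbase (a : F) a.2 (by
        intro V hV
        obtain ⟨W, hW, hWV⟩ := hS.exists_over V hV
        have h1 := ha W hW
        rw [hCL] at h1
        rw [← hWV, mem_nonunits_comap]
        exact h1)
      exact ⟨⟨t, ht⟩, Subtype.ext hat⟩)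
    b ((isIntegral_adjoin_of_isIntegral_adjoin_image T hb).tower_top) hbM
  refine ⟨t, ?_, by rw [← hwL]; exact hbt⟩
  exact isIntegral_adjoin_image_of_isIntegral_adjoin T (isIntegral_trans t ht)

/-- **Leaf RED, cover step.** -/
theorem redConclusion_of_baseRed [Normal F L] (w : R) (x : F) (hw0 : algebraMap R F w ≠ 0)
    (hS : SheetsConclusion L w x) (hbase : BaseRed w x) : RedConclusion L w x := by
  intro T hT b hb hbM
  rcases hT with rfl | rfl | rfl
  · have h := red_of_baseRed_aux (L := L) w x hw0 hS {x} (hbase _ (Or.inl rfl)) b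
      (by rwa [Set.image_singleton]) hbM
    rwa [Set.image_singleton] at h
  · have h := red_of_baseRed_aux (L := L) w x hw0 hS {x⁻¹} (hbase _ (Or.inr (Or.inl rfl))) b
      (by rwa [Set.image_singleton, map_inv₀]) hbM
    rwa [Set.image_singleton, map_inv₀] at h
  · have h := red_of_baseRed_aux (L := L) w x hw0 hS {x, x⁻¹}
      (hbase _ (Or.inr (Or.inr rfl))) b (by rwa [Set.image_pair, map_inv₀]) hbM
    rwa [Set.image_pair, map_inv₀] at h

end Main

end Fermat.Agent.A2.H652
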