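import Mathlib.RingTheory.Valuation.LocalSubring
import Mathlib.RingTheory.Localization.AtPrime.Basic
import Mathlib.RingTheory.IntegralClosure.GoingDown
import Mathlib.RingTheory.Polynomial.Basic
import Fermat.Agent.A2.H12.AlgLeaves
import Fermat.Agent.A2.H652.RedCover

/-!
# Cell A2, route G — leaf RED, base step (helper652)

`baseRed_of_ssChart` : for the two semistable charts `Bf`, `Bi` (`SSChart`, frozen `A2/Spec.lean`)
of the base `F`, the special fibre of each of the three charts of `F` is reduced and all its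
components are sheets (`BaseRed w x`).

Ingredients:
* `exists_valuationSubring_center` : a valuation subring centred at a given prime of a
  subalgebra (Mathlib: `LocalSubring.exists_le_valuationSubring`);
* `coeff_dvd_of_mem_of_inf_eq` : going down (`R[x]` is integrally closed): both components
  `p₁`, `p₂` of the special fibre lie over the generic point `(w)` of the special fibre of `R[x]`
  (here the incomparability fields of `SSChart` are used);
* hence the valuation subrings centred at `p₁`, `p₂` are sheets (`isSheet_of_center`), and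
  `a ∈ p₁ ⊓ p₂ = (w)`.
-/

set_option autoImplicit false
set_option linter.style.haveILetI false
set_option linter.unusedSectionVars false

namespace Fermat.Agent.A2.H652

open Polynomial
open Fermat.Agent.A2 Fermat.Agent.A2.H12
open Fermat.Agent.S18.H138 (chart mem_chart mem_adjoin_singleton_iff
  isIntegrallyClosed_adjoin_singleton)

section Center

variable {F : Type*} [Field F]

/-- A valuation subring centred at a given prime of a subring. -/
theorem exists_valuationSubring_center_subring (A : Subring F) (P : Ideal A) [P.IsPrime] :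
    ∃ V : ValuationSubring F, (∀ b ∈ A, b ∈ V) ∧ ∀ b : A, (b : F) ∈ V.nonunits ↔ b ∈ P := by
  obtain ⟨V, hle, hloc⟩ := (LocalSubring.ofPrime A P).exists_le_valuationSubring
  have hAV : ∀ b ∈ A, b ∈ V := fun b hb => hle (LocalSubring.le_ofPrime A P hb)
  refine ⟨V, hAV, fun b => ⟨fun hb => ?_, fun hb => ?_⟩⟩
  · by_contra hbP
    have hu : IsUnit (algebraMap A (LocalSubring.ofPrime A P).toSubring b) :=
      IsLocalization.map_units (M := P.primeCompl) _ ⟨b, hbP⟩
    obtain ⟨c, hc⟩ := hu.exists_right_inv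
    have hc' : (b : F) * (c : F) = 1 := congrArg Subtype.val hc
    have hcV : (c : F) ∈ V := hle c.2
    have h1 : (b : F) * (c : F) ∈ V.nonunits := mul_mem_nonunits_right V hb hcV
    rw [hc'] at h1
    exact one_not_mem_nonunits V h1
  · have hnu : ¬ IsUnit (algebraMap A (LocalSubring.ofPrime A P).toSubring b) := by
      rw [IsLocalization.AtPrime.isUnit_to_map_iff (LocalSubring.ofPrime A P).toSubring P]
      exact fun h => h hb
    have hnu' : ¬ IsUnit (Subring.inclusion hle (algebraMap A _ b)) := fun h =>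
      hnu (hloc.map_nonunit _ h)
    have hbV : (b : F) ∈ V := hAV b b.2
    rw [ValuationSubring.mem_nonunits_iff_exists_mem_maximalIdeal]
    refine ⟨hbV, ?_⟩
    rw [IsLocalRing.mem_maximalIdeal, mem_nonunits_iff]
    exact hnu'

variable {R : Type*} [CommRing R] [Algebra R F]

/-- A valuation subring centred at a given prime of a subalgebra. -/
theorem exists_valuationSubring_center (B : Subalgebra R F) (p : Ideal B) [p.IsPrime] :
    ∃ V : ValuationSubring F, (∀ b ∈ B, b ∈ V) ∧ ∀ b : B, (b : F) ∈ V.nonunits ↔ b ∈ p := by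
  let φ : B.toSubring →+* B := (B.toSubring.subtype).codRestrict B (fun y => y.2)
  obtain ⟨V, h1, h2⟩ := exists_valuationSubring_center_subring B.toSubring (p.comap φ)
  refine ⟨V, fun b hb => h1 b hb, fun b => ?_⟩
  have := h2 ⟨b.1, b.2⟩
  rw [Ideal.mem_comap] at this
  exact this

end Center

section GoingDown

variable {R : Type*} [CommRing R] [IsDomain R] {F : Type*} [Field F] [Algebra R F]

/-- `w` is a prime element of `R[x]`. -/
theorem prime_algebraMap_adjoin (w : R) (hw : Prime w) {x : F} (hx : Transcendental R x) :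
    Prime (algebraMap R (Algebra.adjoin R ({x} : Set F)) w) := by
  have hinj : Function.Injective (aeval (R := R) x) :=
    (injective_iff_map_eq_zero _).2 (transcendental_iff.1 hx)
  let e : R[X] ≃ₐ[R] Algebra.adjoin R ({x} : Set F) :=
    (AlgEquiv.ofInjective (aeval (R := R) x) hinj).trans
      (Subalgebra.equivOfEq _ _ (Algebra.adjoin_singleton_eq_range_aeval R x).symm)
  have h1 : algebraMap R (Algebra.adjoin R ({x} : Set F)) w = e (C w) := by
    rw [← e.commutes]
    rfl
  rw [h1, MulEquiv.prime_iff]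
  exact prime_C_iff.2 hw

/-- **Going down.**  `B` the integral closure of `R[x]` in `F`, `p`, `p'` primes of `B` with
`p ∩ p' = (w)` and `p' ⊄ p`: then `p ∩ R[x] = w R[x]`. -/
theorem coeff_dvd_of_mem_of_inf_eq [IsIntegrallyClosed R[X]] (w : R) (hw : Prime w) {x : F}
    (hx : Transcendental R x) (B : Subalgebra R F)
    (hB : ∀ f : F, f ∈ B ↔ IsIntegral (Algebra.adjoin R ({x} : Set F)) f)
    (p p' : Ideal B) [hp : p.IsPrime] (hinf : p ⊓ p' = Ideal.span {algebraMap R B w})
    (hnle : ¬ p' ≤ p) (b : B) (hb : b ∈ p) (P : R[X]) (hbP : (b : F) = aeval x P) (i : ℕ) :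
    w ∣ P.coeff i := by
  have hAB : Algebra.adjoin R ({x} : Set F) ≤ B := fun y hy =>
    (hB y).2 (isIntegral_algebraMap (R := Algebra.adjoin R ({x} : Set F)) (x := ⟨y, hy⟩))
  letI : Algebra (Algebra.adjoin R ({x} : Set F)) B :=
    (Subalgebra.inclusion hAB).toRingHom.toAlgebra
  haveI : IsScalarTower (Algebra.adjoin R ({x} : Set F)) B F :=
    IsScalarTower.of_algebraMap_eq (fun _ => rfl)
  have hinjAB : Function.Injective (algebraMap (Algebra.adjoin R ({x} : Set F)) B) :=
    Subalgebra.inclusion_injective hAB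
  haveI : FaithfulSMul (Algebra.adjoin R ({x} : Set F)) B :=
    (faithfulSMul_iff_algebraMap_injective _ _).2 hinjAB
  haveI : Algebra.IsIntegral (Algebra.adjoin R ({x} : Set F)) B := ⟨fun y => by
    have := (hB y).1 y.2
    exact (isIntegral_algebraMap_iff (B := F) Subtype.val_injective).1 this⟩
  haveI : IsIntegrallyClosed (Algebra.adjoin R ({x} : Set F)) :=
    isIntegrallyClosed_adjoin_singleton hx
  have hwA : Prime (algebraMap R (Algebra.adjoin R ({x} : Set F)) w) :=
    prime_algebraMap_adjoin w hw hx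
  haveI hq : (Ideal.span {algebraMap R (Algebra.adjoin R ({x} : Set F)) w}).IsPrime :=
    (Ideal.span_singleton_prime hwA.ne_zero).2 hwA
  have hwB : algebraMap (Algebra.adjoin R ({x} : Set F)) B
      (algebraMap R (Algebra.adjoin R ({x} : Set F)) w) = algebraMap R B w := rfl
  have hwp : algebraMap R B w ∈ p := by
    have : algebraMap R B w ∈ p ⊓ p' := by
      rw [hinf]
      exact Ideal.subset_span rfl
    exact this.1
  have hle : Ideal.span {algebraMap R (Algebra.adjoin R ({x} : Set F)) w} ≤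
      p.under (Algebra.adjoin R ({x} : Set F)) := by
    rw [Ideal.span_le, Set.singleton_subset_iff]
    change algebraMap _ B _ ∈ p
    rw [hwB]
    exact hwp
  obtain ⟨P', hP'le, hP'prime, hP'over⟩ := Ideal.exists_ideal_le_liesOver_of_le
    (p := Ideal.span {algebraMap R (Algebra.adjoin R ({x} : Set F)) w})
    (q := p.under (Algebra.adjoin R ({x} : Set F))) p hle
  have hwP' : algebraMap R B w ∈ P' := by
    rw [← hwB, ← Ideal.mem_of_liesOver P'
      (Ideal.span {algebraMap R (Algebra.adjoin R ({x} : Set F)) w})]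
    exact Ideal.subset_span rfl
  have hinfle : p ⊓ p' ≤ P' := by
    rw [hinf, Ideal.span_le, Set.singleton_subset_iff]
    exact hwP'
  have hpP' : p ≤ P' := by
    rcases (hP'prime.inf_le).1 hinfle with h | h
    · exact h
    · exact absurd (h.trans hP'le) hnle
  have hPp : P' = p := le_antisymm hP'le hpP'
  -- `b ∈ p ∩ R[x] = (w)`
  have hbA : (b : F) ∈ Algebra.adjoin R ({x} : Set F) := by
    rw [hbP]
    exact mem_adjoin_singleton_iff.2 ⟨P, rfl⟩
  have hbq : (⟨(b : F), hbA⟩ : Algebra.adjoin R ({x} : Set F)) ∈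
      Ideal.span {algebraMap R (Algebra.adjoin R ({x} : Set F)) w} := by
    rw [Ideal.mem_of_liesOver P' (Ideal.span {algebraMap R (Algebra.adjoin R ({x} : Set F)) w}),
      hPp]
    have : algebraMap (Algebra.adjoin R ({x} : Set F)) B ⟨(b : F), hbA⟩ = b := Subtype.ext rfl
    rw [this]
    exact hb
  obtain ⟨c, hc⟩ := Ideal.mem_span_singleton'.1 hbq
  obtain ⟨Q, hQ⟩ := mem_adjoin_singleton_iff.1 c.2
  have h2 : aeval x (Q * C w) = aeval x P := by
    rw [map_mul, aeval_C, hQ, ← hbP]
    exact congrArg Subtype.val hc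
  have h3 : Q * C w = P := by
    have := (transcendental_iff.1 hx) (Q * C w - P) (by rw [map_sub, h2, sub_self])
    exact sub_eq_zero.1 this
  rw [← h3, coeff_mul_C]
  exact dvd_mul_left _ _

end GoingDown

section Sheets

universe u

variable {R : Type u} [CommRing R] [IsDomain R] {F : Type u} [Field F] [Algebra R F]

/-- A valuation subring of `F` centred at a component of the special fibre of a semistable chart
is a sheet. -/
theorem isSheet_of_center [IsIntegrallyClosed R[X]] (w : R) (hw : Prime w) {x : F}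
    (hx : Transcendental R x) (B : Subalgebra R F)
    (hB : ∀ f : F, f ∈ B ↔ IsIntegral (Algebra.adjoin R ({x} : Set F)) f)
    (p p' : Ideal B) [hp : p.IsPrime] (hinf : p ⊓ p' = Ideal.span {algebraMap R B w})
    (hnle : ¬ p' ≤ p) (V : ValuationSubring F) (hBV : ∀ b ∈ B, b ∈ V)
    (hV : ∀ b : B, (b : F) ∈ V.nonunits ↔ b ∈ p) : IsSheet w x V := by
  have hAB : Algebra.adjoin R ({x} : Set F) ≤ B := fun y hy =>
    (hB y).2 (isIntegral_algebraMap (R := Algebra.adjoin R ({x} : Set F)) (x := ⟨y, hy⟩))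
  have hwp : algebraMap R B w ∈ p := by
    have : algebraMap R B w ∈ p ⊓ p' := by
      rw [hinf]
      exact Ideal.subset_span rfl
    exact this.1
  refine ⟨fun r => hBV _ (B.algebraMap_mem r), hBV _ (hAB (Algebra.subset_adjoin rfl)),
    (hV (algebraMap R B w)).2 hwp, ?_⟩
  intro P hP
  have hyB : aeval x P ∈ B := hAB (mem_adjoin_singleton_iff.2 ⟨P, rfl⟩)
  have hnot : aeval x P ∉ V.nonunits := by
    intro h
    have h1 : (⟨aeval x P, hyB⟩ : B) ∈ p := (hV ⟨aeval x P, hyB⟩).1 h
    obtain ⟨i, hi⟩ := hP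
    exact hi (coeff_dvd_of_mem_of_inf_eq w hw hx B hB p p' hinf hnle _ h1 P rfl i)
  rw [ValuationSubring.mem_nonunits_iff_or] at hnot
  by_contra h
  exact hnot (Or.inr h)

/-- **Base RED for one semistable chart.** -/
theorem baseRed_of_ssChart_one [IsIntegrallyClosed R[X]] (w : R) (hw : Prime w) {x : F}
    (hx : Transcendental R x) (B : Subalgebra R F)
    (hB : ∀ f : F, f ∈ B ↔ IsIntegral (Algebra.adjoin R ({x} : Set F)) f)
    (c : SSChart w B) (a : F) (ha : a ∈ B)
    (haV : ∀ V : ValuationSubring F, IsSheet w x V → a ∈ V.nonunits) :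
    ∃ t ∈ B, a = algebraMap R F w * t := by
  haveI := c.prime₁
  haveI := c.prime₂
  obtain ⟨V₁, hBV₁, hV₁⟩ := exists_valuationSubring_center B c.p₁
  obtain ⟨V₂, hBV₂, hV₂⟩ := exists_valuationSubring_center B c.p₂
  have hS₁ : IsSheet w x V₁ :=
    isSheet_of_center w hw hx B hB c.p₁ c.p₂ c.inf_eq c.not_le₂₁ V₁ hBV₁ hV₁
  have hS₂ : IsSheet w x V₂ :=
    isSheet_of_center w hw hx B hB c.p₂ c.p₁ (by rw [inf_comm]; exact c.inf_eq) c.not_le₁₂
      V₂ hBV₂ hV₂
  have h1 : (⟨a, ha⟩ : B) ∈ c.p₁ := (hV₁ ⟨a, ha⟩).1 (haV V₁ hS₁)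
  have h2 : (⟨a, ha⟩ : B) ∈ c.p₂ := (hV₂ ⟨a, ha⟩).1 (haV V₂ hS₂)
  have h3 : (⟨a, ha⟩ : B) ∈ c.p₁ ⊓ c.p₂ := ⟨h1, h2⟩
  rw [c.inf_eq] at h3
  obtain ⟨t, ht⟩ := Ideal.mem_span_singleton'.1 h3
  refine ⟨t, t.2, ?_⟩
  have := congrArg Subtype.val ht
  rw [mul_comm]
  exact this.symm

/-- A sheet for the coordinate `x⁻¹` is a sheet for the coordinate `x`. -/
theorem isSheet_of_isSheet_inv (w : R) {x : F} (hx0 : x ≠ 0) {V : ValuationSubring F}
    (hV : IsSheet w x⁻¹ V) : IsSheet w x V := by
  have hxV : x ∈ V := by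
    have := hV.inv_mem
    rwa [inv_inv] at this
  refine ⟨hV.1, hxV, hV.2.2.1, ?_⟩
  intro P hP
  have h1 : x ^ P.natDegree * aeval x⁻¹ (reflect P.natDegree P) = aeval x P := by
    have := Fermat.Agent.S18.H138.pow_mul_aeval_inv (R := R) hx0 (reflect P.natDegree P)
      (d := P.natDegree) (le_trans natDegree_reflect_le (by simp))
    rw [reflect_reflect] at this
    exact this
  have h2 : (aeval x⁻¹ (reflect P.natDegree P))⁻¹ ∈ V := by
    apply hV.2.2.2
    obtain ⟨i, hi⟩ := hP
    refine ⟨revAt P.natDegree i, ?_⟩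
    rw [coeff_reflect, revAt_invol]
    exact hi
  rw [← h1, mul_inv, ← inv_pow]
  exact V.mul_mem _ _ (pow_mem hV.2.1 _) h2

/-- **Base RED** from the two semistable charts. -/
theorem baseRed_of_ssChart [IsIntegrallyClosed R[X]] (w : R) (hw : Prime w) {x : F}
    (hx : Transcendental R x) (Bf Bi : Subalgebra R F)
    (hBf : ∀ f : F, f ∈ Bf ↔ IsIntegral (Algebra.adjoin R ({x} : Set F)) f)
    (hBi : ∀ f : F, f ∈ Bi ↔ IsIntegral (Algebra.adjoin R ({x⁻¹} : Set F)) f)
    (cf : SSChart w Bf) (ci : SSChart w Bi) : BaseRed w x := by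
  have hx0 : x ≠ 0 := Fermat.Agent.S18.H138.ne_zero_of_transcendental hx
  have hfin : ∀ a ∈ chart R ({x} : Set F),
      (∀ V : ValuationSubring F, IsSheet w x V → a ∈ V.nonunits) →
      ∃ t ∈ chart R ({x} : Set F), a = algebraMap R F w * t := by
    intro a ha haV
    obtain ⟨t, ht, hat⟩ := baseRed_of_ssChart_one w hw hx Bf hBf cf a ((hBf a).2 ha) haV
    exact ⟨t, (hBf t).1 ht, hat⟩
  intro T hT a ha haV
  rcases hT with rfl | rfl | rfl
  · exact hfin a ha haV
  · obtain ⟨t, ht, hat⟩ := baseRed_of_ssChart_one w hw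
      (Fermat.Agent.S18.H138.transcendental_inv hx) Bi hBi ci a ((hBi a).2 ha)
      (fun V hV => haV V (isSheet_of_isSheet_inv w hx0 hV))
    exact ⟨t, (hBi t).1 ht, hat⟩
  · obtain ⟨K, hK⟩ := Fermat.Agent.S18.H138.exists_pow_mul_mem_chart (R := R) hx0 ha
    obtain ⟨t, ht, hat⟩ := hfin _ hK (fun V hV =>
      mul_mem_nonunits_left V (pow_mem hV.2.1 K) (haV V hV))
    refine ⟨x⁻¹ ^ K * t, ?_, ?_⟩
    · refine Subalgebra.mul_mem _ (Subalgebra.pow_mem _ ?_ K) ?_
      · exact Fermat.Agent.S18.H138.mem_chart_of_mem (by simp)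
      · exact Fermat.Agent.S18.H138.chart_mono (by simp) ht
    · have hxK : x ^ K ≠ 0 := pow_ne_zero _ hx0
      have : a = x⁻¹ ^ K * (x ^ K * a) := by
        rw [inv_pow, ← mul_assoc, inv_mul_cancel₀ hxK, one_mul]
      rw [this, hat]
      ring

end Sheets

end Fermat.Agent.A2.H652
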