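import Mathlib.RingTheory.Algebraic.Integral
import Mathlib.RingTheory.UniqueFactorizationDomain.Multiplicity
import Mathlib.RingTheory.Polynomial.Basic
import Fermat.Agent.A2.H652.RedBase

/-!
# Cell A2, route G — the sheets of the base `F` (helper652)

Setting: `R` a noetherian domain with `R[X]` integrally closed, `w ∈ R` prime, `x ∈ F`
transcendental over `R`, `F` algebraic over `R[x]`, `B` the integral closure of `R[x]` in `F`,
semistable (`SSChart w B`, frozen `A2/Spec.lean`) with components `p₁`, `p₂`.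

* `sheetCentre_eq`  : the centre `𝔪_V ∩ B` of a sheet `V` of `F` is `p₁` or `p₂`
  (Gauss condition + incomparability of primes in an integral extension);
* `exists_normal_form` : for a sheet `V` with centre `p`, every `f ≠ 0` of `F` satisfies
  `f * b = w ^ n * a` with `n : ℤ` and `a, b ∈ B \ p` (units of `V`).
  No noetherian hypothesis on `B`, no localisation, no Krull intersection theorem: the
  exponent is bounded because `b ∣ a₀ = w ^ k * P(x)` in `B` with `P` primitive modulo `w`;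
* `sheet_discrete`  : `f = w ^ n * u`, `u` a unit of `V`  (`BaseConclusion.discrete`);
* `sheet_eq_of_centre_eq`, `sheets_finite` : a sheet is determined by its centre, so `F` has
  at most two sheets (needed by the leaves SHEETS and COUNT);
* `sheet_stable` : `BaseConclusion.stable` for an automorphism `τ` with `τ ≡ id` modulo `w` on `B`.
-/

set_option autoImplicit false
set_option linter.style.haveILetI false
set_option linter.unusedSectionVars false
set_option linter.unusedVariables false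

namespace Fermat.Agent.A2.H652

open Polynomial
open Fermat.Agent.A2 Fermat.Agent.A2.H12
open Fermat.Agent.S18.H138 (chart mem_chart mem_adjoin_singleton_iff
  isIntegrallyClosed_adjoin_singleton)

section Classify

universe u

variable {R : Type u} [CommRing R] [IsDomain R] {F : Type u} [Field F] [Algebra R F]

/-- The chart `B` lies in every sheet. -/
theorem mem_sheet_of_mem_chart (w : R) {x : F} (B : Subalgebra R F)
    (hB : ∀ f : F, f ∈ B ↔ IsIntegral (Algebra.adjoin R ({x} : Set F)) f)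
    {V : ValuationSubring F} (hV : IsSheet w x V) {b : F} (hb : b ∈ B) : b ∈ V :=
  hV.chart_le (T := {x}) (by simp) ((hB b).1 hb)

/-- The centre of a sheet on the chart `B`. -/
def sheetCentre (w : R) {x : F} (B : Subalgebra R F)
    (hB : ∀ f : F, f ∈ B ↔ IsIntegral (Algebra.adjoin R ({x} : Set F)) f)
    {V : ValuationSubring F} (hV : IsSheet w x V) : Ideal B where
  carrier := {b | (b : F) ∈ V.nonunits}
  add_mem' := fun ha hb => V.nonunits.add_mem ha hb
  zero_mem' := V.nonunits.zero_mem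
  smul_mem' := fun c _ ha =>
    mul_mem_nonunits_left V (mem_sheet_of_mem_chart w B hB hV c.2) ha

theorem mem_sheetCentre (w : R) {x : F} (B : Subalgebra R F)
    (hB : ∀ f : F, f ∈ B ↔ IsIntegral (Algebra.adjoin R ({x} : Set F)) f)
    {V : ValuationSubring F} (hV : IsSheet w x V) (b : B) :
    b ∈ sheetCentre w B hB hV ↔ (b : F) ∈ V.nonunits := Iff.rfl

theorem sheetCentre_isPrime (w : R) {x : F} (B : Subalgebra R F)
    (hB : ∀ f : F, f ∈ B ↔ IsIntegral (Algebra.adjoin R ({x} : Set F)) f)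
    {V : ValuationSubring F} (hV : IsSheet w x V) : (sheetCentre w B hB hV).IsPrime := by
  refine ⟨?_, ?_⟩
  · intro h
    have : (1 : B) ∈ sheetCentre w B hB hV := by rw [h]; trivial
    exact one_not_mem_nonunits V this
  · intro a b hab
    rw [mem_sheetCentre] at hab
    by_contra hcon
    push Not at hcon
    obtain ⟨ha, hb⟩ := hcon
    rw [mem_sheetCentre, ValuationSubring.mem_nonunits_iff_or] at ha hb
    push Not at ha hb
    have h1 : ((a : F) * (b : F))⁻¹ ∈ V := by
      rw [mul_inv]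
      exact V.mul_mem _ _ ha.2 hb.2
    rw [Subalgebra.coe_mul] at hab
    have h2 := mul_mem_nonunits_right V hab h1
    rw [mul_inv_cancel₀ (mul_ne_zero ha.1 hb.1)] at h2
    exact one_not_mem_nonunits V h2

/-- Elements of `B` outside the centre are units of the sheet. -/
theorem inv_mem_of_not_mem_centre (w : R) {x : F} (B : Subalgebra R F)
    (hB : ∀ f : F, f ∈ B ↔ IsIntegral (Algebra.adjoin R ({x} : Set F)) f)
    {V : ValuationSubring F} (hV : IsSheet w x V) {b : B}
    (hb : b ∉ sheetCentre w B hB hV) : (b : F) ≠ 0 ∧ (b : F)⁻¹ ∈ V := by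
  rw [mem_sheetCentre, ValuationSubring.mem_nonunits_iff_or] at hb
  push Not at hb
  exact hb

/-- **Incomparability.**  A prime of `B` containing `w` and contained in the centre of a sheet
is the centre. -/
theorem sheetCentre_le_of_le (w : R) {x : F} (B : Subalgebra R F)
    (hB : ∀ f : F, f ∈ B ↔ IsIntegral (Algebra.adjoin R ({x} : Set F)) f)
    {V : ValuationSubring F} (hV : IsSheet w x V) (p : Ideal B) [hp : p.IsPrime]
    (hwp : algebraMap R B w ∈ p) (hle : p ≤ sheetCentre w B hB hV) :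
    sheetCentre w B hB hV ≤ p := by
  by_contra hne
  obtain ⟨b, hb𝔭, hbp⟩ := SetLike.not_le_iff_exists.1 hne
  have hAB : Algebra.adjoin R ({x} : Set F) ≤ B := fun y hy =>
    (hB y).2 (isIntegral_algebraMap (R := Algebra.adjoin R ({x} : Set F)) (x := ⟨y, hy⟩))
  letI : Algebra (Algebra.adjoin R ({x} : Set F)) B :=
    (Subalgebra.inclusion hAB).toRingHom.toAlgebra
  haveI : IsScalarTower (Algebra.adjoin R ({x} : Set F)) B F :=
    IsScalarTower.of_algebraMap_eq (fun _ => rfl)
  have hbint : IsIntegral (Algebra.adjoin R ({x} : Set F)) b :=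
    (isIntegral_algebraMap_iff (B := F) Subtype.val_injective).1 ((hB b).1 b.2)
  have hlt := Ideal.comap_lt_comap_of_integral_mem_sdiff
    (R := Algebra.adjoin R ({x} : Set F)) hle ⟨hb𝔭, hbp⟩ hbint
  obtain ⟨a, ha𝔭, hap⟩ := SetLike.exists_of_lt hlt
  rw [Ideal.mem_comap] at ha𝔭 hap
  have haV : (a : F) ∈ V.nonunits := ha𝔭
  obtain ⟨P, hP⟩ := mem_adjoin_singleton_iff.1 a.2
  have hdvd : ∀ i, w ∣ P.coeff i := by
    by_contra hcon
    push Not at hcon
    have h1 : (aeval x P)⁻¹ ∈ V := hV.2.2.2 P hcon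
    rw [hP] at h1
    by_cases ha0 : (a : F) = 0
    · apply hap
      have : algebraMap (Algebra.adjoin R ({x} : Set F)) B a = 0 := Subtype.ext ha0
      rw [this]
      exact p.zero_mem
    · have h2 := mul_mem_nonunits_right V haV h1
      rw [mul_inv_cancel₀ ha0] at h2
      exact one_not_mem_nonunits V h2
  obtain ⟨Q, hQ⟩ := (C_dvd_iff_dvd_coeff w P).2 hdvd
  apply hap
  have hQB : aeval x Q ∈ B := hAB (mem_adjoin_singleton_iff.2 ⟨Q, rfl⟩)
  have : algebraMap (Algebra.adjoin R ({x} : Set F)) B a =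
      algebraMap R B w * ⟨aeval x Q, hQB⟩ := by
    apply Subtype.ext
    change (a : F) = algebraMap R F w * aeval x Q
    rw [← hP, hQ, map_mul, aeval_C]
  rw [this]
  exact p.mul_mem_right _ hwp

/-- **The centre of a sheet is one of the two components.** -/
theorem sheetCentre_eq (w : R) {x : F} (B : Subalgebra R F)
    (hB : ∀ f : F, f ∈ B ↔ IsIntegral (Algebra.adjoin R ({x} : Set F)) f)
    (c : SSChart w B) {V : ValuationSubring F} (hV : IsSheet w x V) :
    sheetCentre w B hB hV = c.p₁ ∨ sheetCentre w B hB hV = c.p₂ := by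
  haveI := c.prime₁
  haveI := c.prime₂
  have hw𝔭 : algebraMap R B w ∈ sheetCentre w B hB hV := hV.2.2.1
  have hwinf : algebraMap R B w ∈ c.p₁ ⊓ c.p₂ := by
    rw [c.inf_eq]
    exact Ideal.subset_span rfl
  have hinf : c.p₁ ⊓ c.p₂ ≤ sheetCentre w B hB hV := by
    rw [c.inf_eq, Ideal.span_le, Set.singleton_subset_iff]
    exact hw𝔭
  rcases ((sheetCentre_isPrime w B hB hV).inf_le).1 hinf with h | h
  · exact Or.inl (le_antisymm (sheetCentre_le_of_le w B hB hV c.p₁ hwinf.1 h) h)
  · exact Or.inr (le_antisymm (sheetCentre_le_of_le w B hB hV c.p₂ hwinf.2 h) h)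

/-- **Uniformiser step.**  `b ∈ p` becomes divisible by `w` after multiplication by an element
of `p' \ p`. -/
theorem exists_mul_eq_of_mem (w : R) (B : Subalgebra R F) (p p' : Ideal B)
    (hinf : p ⊓ p' = Ideal.span {algebraMap R B w}) (hnle : ¬ p' ≤ p) {b : B} (hb : b ∈ p) :
    ∃ s t : B, s ∉ p ∧ s * b = algebraMap R B w * t := by
  obtain ⟨s, hs', hs⟩ := SetLike.not_le_iff_exists.1 hnle
  have h1 : s * b ∈ p ⊓ p' := ⟨p.mul_mem_left s hb, p'.mul_mem_right b hs'⟩
  rw [hinf] at h1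
  obtain ⟨t, ht⟩ := Ideal.mem_span_singleton'.1 h1
  exact ⟨s, t, hs, by rw [← ht, mul_comm]⟩

/-- **Bound.**  Every nonzero element of `B` divides `w ^ k * P(x)` for some `k` and some `P`
which is primitive modulo `w`. -/
theorem exists_mul_eq_pow_mul [IsNoetherianRing R] (w : R) (hw : Prime w) {x : F}
    (B : Subalgebra R F)
    (hB : ∀ f : F, f ∈ B ↔ IsIntegral (Algebra.adjoin R ({x} : Set F)) f)
    (halg : ∀ f : F, IsAlgebraic (Algebra.adjoin R ({x} : Set F)) f)
    {b : B} (hb : b ≠ 0) :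
    ∃ (k : ℕ) (P : R[X]) (b' : B), (∃ i, ¬ w ∣ P.coeff i) ∧ aeval x P ≠ 0 ∧
      (b : F) * (b' : F) = algebraMap R F w ^ k * aeval x P := by
  have hb0 : (b : F) ≠ 0 := fun h => hb (Subtype.ext h)
  obtain ⟨y, hy0, hy⟩ := (halg (b : F)⁻¹).exists_integral_multiple
  have hyF : (y : F) ≠ 0 := fun h => hy0 (Subtype.ext h)
  have hsmul : y • (b : F)⁻¹ = (y : F) * (b : F)⁻¹ := by
    rw [Algebra.smul_def]
    rfl
  rw [hsmul] at hy
  obtain ⟨Q, hQ⟩ := mem_adjoin_singleton_iff.1 y.2
  have hQ0 : Q ≠ 0 := by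
    rintro rfl
    rw [map_zero] at hQ
    exact hyF hQ.symm
  have hirr : Irreducible (C w : R[X]) := (prime_C_iff.2 hw).irreducible
  obtain ⟨k, P, hP, hQP⟩ := WfDvdMonoid.max_power_factor hQ0 hirr
  refine ⟨k, P, ⟨(y : F) * (b : F)⁻¹, (hB _).2 hy⟩, ?_, ?_, ?_⟩
  · by_contra hcon
    push Not at hcon
    exact hP ((C_dvd_iff_dvd_coeff w P).2 hcon)
  · intro h0
    apply hyF
    rw [← hQ, hQP, map_mul, h0, mul_zero]
  · change (b : F) * ((y : F) * (b : F)⁻¹) = _
    rw [mul_comm (y : F), ← mul_assoc, mul_inv_cancel₀ hb0, one_mul, ← hQ, hQP, map_mul, map_pow,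
      aeval_C]

/-- Auxiliary induction for `exists_normal_form_chart`. -/
theorem exists_normal_form_aux (w : R) (hw0 : w ≠ 0)
    (hinj : Function.Injective (algebraMap R F)) (B : Subalgebra R F) (p p' : Ideal B)
    [hp : p.IsPrime] (hinf : p ⊓ p' = Ideal.span {algebraMap R B w}) (hnle : ¬ p' ≤ p) (k : ℕ) :
    ∀ b b' e : B, e ∉ p → b * b' = algebraMap R B w ^ k * e →
      ∃ (n : ℕ) (s t : B), s ∉ p ∧ t ∉ p ∧ s * b = algebraMap R B w ^ n * t := by
  have hwB0 : algebraMap R B w ≠ 0 := by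
    intro h
    have h1 : algebraMap R F w = 0 := congrArg Subtype.val h
    exact hw0 (hinj (by rw [h1, map_zero]))
  have h1p : (1 : B) ∉ p := fun h => hp.ne_top ((Ideal.eq_top_iff_one p).2 h)
  induction k with
  | zero =>
    intro b b' e he hbe
    rw [pow_zero, one_mul] at hbe
    have hb : b ∉ p := fun hb => he (hbe ▸ p.mul_mem_right b' hb)
    exact ⟨0, 1, b, h1p, hb, by simp⟩
  | succ k ih =>
    intro b b' e he hbe
    by_cases hb : b ∈ p
    · obtain ⟨s₀, t₀, hs₀, hst⟩ := exists_mul_eq_of_mem w B p p' hinf hnle hb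
      have h2 : t₀ * b' = algebraMap R B w ^ k * (s₀ * e) := by
        apply mul_left_cancel₀ hwB0
        rw [← mul_assoc, ← hst, mul_assoc, hbe, pow_succ]
        ring
      have hse : s₀ * e ∉ p := fun h => (hp.mem_or_mem h).elim hs₀ he
      obtain ⟨n, s, t, hs, ht, hstn⟩ := ih t₀ b' (s₀ * e) hse h2
      refine ⟨n + 1, s * s₀, t, fun h => (hp.mem_or_mem h).elim hs hs₀, ht, ?_⟩
      rw [mul_assoc, hst, ← mul_assoc, mul_comm s, mul_assoc, hstn, pow_succ]
      ring
    · exact ⟨0, 1, b, h1p, hb, by simp⟩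

/-- **Normal form on the chart.**  For a sheet `V` with centre `p`, every nonzero `b ∈ B` is
`w ^ n` times a unit of `V`: `s * b = w ^ n * t` with `s, t ∈ B \ p`. -/
theorem exists_normal_form_chart [IsNoetherianRing R] (w : R) (hw : Prime w)
    (hinj : Function.Injective (algebraMap R F)) {x : F}
    (B : Subalgebra R F)
    (hB : ∀ f : F, f ∈ B ↔ IsIntegral (Algebra.adjoin R ({x} : Set F)) f)
    (halg : ∀ f : F, IsAlgebraic (Algebra.adjoin R ({x} : Set F)) f)
    {V : ValuationSubring F} (hV : IsSheet w x V) (p p' : Ideal B)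
    (hcentre : sheetCentre w B hB hV = p)
    (hinf : p ⊓ p' = Ideal.span {algebraMap R B w}) (hnle : ¬ p' ≤ p)
    {b : B} (hb : b ≠ 0) :
    ∃ (n : ℕ) (s t : B), s ∉ p ∧ t ∉ p ∧ s * b = algebraMap R B w ^ n * t := by
  haveI hp : p.IsPrime := hcentre ▸ sheetCentre_isPrime w B hB hV
  have hAB : Algebra.adjoin R ({x} : Set F) ≤ B := fun y hy =>
    (hB y).2 (isIntegral_algebraMap (R := Algebra.adjoin R ({x} : Set F)) (x := ⟨y, hy⟩))
  obtain ⟨k, P, b', hP, hP0, hbb'⟩ := exists_mul_eq_pow_mul w hw B hB halg hb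
  have hPB : aeval x P ∈ B := hAB (mem_adjoin_singleton_iff.2 ⟨P, rfl⟩)
  have he : (⟨aeval x P, hPB⟩ : B) ∉ p := by
    intro h
    rw [← hcentre, mem_sheetCentre] at h
    have h1 : (aeval x P)⁻¹ ∈ V := hV.2.2.2 P hP
    have h3 : aeval x P * (aeval x P)⁻¹ ∈ V.nonunits := mul_mem_nonunits_right V h h1
    rw [mul_inv_cancel₀ hP0] at h3
    exact one_not_mem_nonunits V h3
  refine exists_normal_form_aux w hw.ne_zero hinj B p p' hinf hnle k b b' ⟨aeval x P, hPB⟩ he ?_
  apply Subtype.ext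
  simpa using hbb'

/-- **Normal form.**  For a sheet `V` with centre `p`, every `f ≠ 0` of `F` satisfies
`f * b * w ^ j = w ^ i * a` with `a, b ∈ B \ p` (units of `V`). -/
theorem exists_nf [IsNoetherianRing R] (w : R) (hw : Prime w)
    (hinj : Function.Injective (algebraMap R F)) {x : F}
    (B : Subalgebra R F)
    (hB : ∀ f : F, f ∈ B ↔ IsIntegral (Algebra.adjoin R ({x} : Set F)) f)
    (halg : ∀ f : F, IsAlgebraic (Algebra.adjoin R ({x} : Set F)) f)
    {V : ValuationSubring F} (hV : IsSheet w x V) (p p' : Ideal B)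
    (hcentre : sheetCentre w B hB hV = p)
    (hinf : p ⊓ p' = Ideal.span {algebraMap R B w}) (hnle : ¬ p' ≤ p)
    {f : F} (hf : f ≠ 0) :
    ∃ (i j : ℕ) (a b : B), a ∉ p ∧ b ∉ p ∧
      f * (b : F) * algebraMap R F w ^ j = algebraMap R F w ^ i * (a : F) := by
  haveI hp : p.IsPrime := hcentre ▸ sheetCentre_isPrime w B hB hV
  have hAB : Algebra.adjoin R ({x} : Set F) ≤ B := fun y hy =>
    (hB y).2 (isIntegral_algebraMap (R := Algebra.adjoin R ({x} : Set F)) (x := ⟨y, hy⟩))
  obtain ⟨y, hy0, hy⟩ := (halg f).exists_integral_multiple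
  have hyF : (y : F) ≠ 0 := fun h => hy0 (Subtype.ext h)
  have hsmul : y • f = (y : F) * f := by
    rw [Algebra.smul_def]
    rfl
  rw [hsmul] at hy
  have hb₁0 : (⟨(y : F) * f, (hB _).2 hy⟩ : B) ≠ 0 := fun h =>
    mul_ne_zero hyF hf (congrArg Subtype.val h)
  have hb₂0 : (⟨(y : F), hAB y.2⟩ : B) ≠ 0 := fun h => hyF (congrArg Subtype.val h)
  obtain ⟨n₁, s₁, t₁, hs₁, ht₁, h₁⟩ :=
    exists_normal_form_chart w hw hinj B hB halg hV p p' hcentre hinf hnle hb₁0
  obtain ⟨n₂, s₂, t₂, hs₂, ht₂, h₂⟩ :=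
    exists_normal_form_chart w hw hinj B hB halg hV p p' hcentre hinf hnle hb₂0
  have e₁ : (s₁ : F) * ((y : F) * f) = algebraMap R F w ^ n₁ * (t₁ : F) := by
    simpa using congrArg Subtype.val h₁
  have e₂ : (s₂ : F) * (y : F) = algebraMap R F w ^ n₂ * (t₂ : F) := by
    simpa using congrArg Subtype.val h₂
  refine ⟨n₁, n₂, t₁ * s₂, s₁ * t₂, fun h => (hp.mem_or_mem h).elim ht₁ hs₂,
    fun h => (hp.mem_or_mem h).elim hs₁ ht₂, ?_⟩
  apply mul_left_cancel₀ hyF
  rw [Subalgebra.coe_mul, Subalgebra.coe_mul]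
  calc (y : F) * (f * ((s₁ : F) * (t₂ : F)) * algebraMap R F w ^ n₂)
      = ((s₁ : F) * ((y : F) * f)) * (algebraMap R F w ^ n₂ * (t₂ : F)) := by ring
    _ = (algebraMap R F w ^ n₁ * (t₁ : F)) * ((s₂ : F) * (y : F)) := by rw [e₁, e₂]
    _ = (y : F) * (algebraMap R F w ^ n₁ * ((t₁ : F) * (s₂ : F))) := by ring

/-- Normal form of the elements of a sheet. -/
theorem exists_nf_of_mem [IsNoetherianRing R] (w : R) (hw : Prime w)
    (hinj : Function.Injective (algebraMap R F)) {x : F}
    (B : Subalgebra R F)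
    (hB : ∀ f : F, f ∈ B ↔ IsIntegral (Algebra.adjoin R ({x} : Set F)) f)
    (halg : ∀ f : F, IsAlgebraic (Algebra.adjoin R ({x} : Set F)) f)
    {V : ValuationSubring F} (hV : IsSheet w x V) (p p' : Ideal B)
    (hcentre : sheetCentre w B hB hV = p)
    (hinf : p ⊓ p' = Ideal.span {algebraMap R B w}) (hnle : ¬ p' ≤ p)
    {f : F} (hf : f ≠ 0) (hfV : f ∈ V) :
    ∃ (k : ℕ) (a b : B), a ∉ p ∧ b ∉ p ∧ f * (b : F) = algebraMap R F w ^ k * (a : F) := by
  have hwF0 : algebraMap R F w ≠ 0 := fun h => hw.ne_zero (hinj (by rw [h, map_zero]))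
  obtain ⟨i, j, a, b, ha, hb, h⟩ := exists_nf w hw hinj B hB halg hV p p' hcentre hinf hnle hf
  rcases le_or_gt j i with hji | hij
  · refine ⟨i - j, a, b, ha, hb, ?_⟩
    apply mul_right_cancel₀ (pow_ne_zero j hwF0)
    rw [h]
    have : i = (i - j) + j := by omega
    conv_lhs => rw [this, pow_add]
    ring
  · exfalso
    apply ha
    rw [← hcentre, mem_sheetCentre]
    have h2 : (a : F) = f * (b : F) * algebraMap R F w ^ (j - i) := by
      apply mul_left_cancel₀ (pow_ne_zero i hwF0)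
      rw [← h]
      have : j = (j - i) + i := by omega
      conv_lhs => rw [this, pow_add]
      ring
    rw [h2]
    obtain ⟨d, hd⟩ : ∃ d, j - i = d + 1 := ⟨j - i - 1, by omega⟩
    rw [hd, pow_succ, ← mul_assoc]
    refine mul_mem_nonunits_left V ?_ hV.2.2.1
    exact V.mul_mem _ _ (V.mul_mem _ _ hfV (mem_sheet_of_mem_chart w B hB hV b.2))
      (pow_mem (mem_of_mem_nonunits V hV.2.2.1) d)

/-- Normal form of the elements of the maximal ideal of a sheet. -/
theorem exists_nf_of_mem_nonunits [IsNoetherianRing R] (w : R) (hw : Prime w)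
    (hinj : Function.Injective (algebraMap R F)) {x : F}
    (B : Subalgebra R F)
    (hB : ∀ f : F, f ∈ B ↔ IsIntegral (Algebra.adjoin R ({x} : Set F)) f)
    (halg : ∀ f : F, IsAlgebraic (Algebra.adjoin R ({x} : Set F)) f)
    {V : ValuationSubring F} (hV : IsSheet w x V) (p p' : Ideal B)
    (hcentre : sheetCentre w B hB hV = p)
    (hinf : p ⊓ p' = Ideal.span {algebraMap R B w}) (hnle : ¬ p' ≤ p)
    {f : F} (hf : f ≠ 0) (hfV : f ∈ V.nonunits) :
    ∃ (k : ℕ) (a b : B), a ∉ p ∧ b ∉ p ∧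
      f * (b : F) = algebraMap R F w ^ (k + 1) * (a : F) := by
  obtain ⟨k, a, b, ha, hb, h⟩ := exists_nf_of_mem w hw hinj B hB halg hV p p' hcentre hinf hnle
    hf (mem_of_mem_nonunits V hfV)
  rcases Nat.eq_zero_or_pos k with rfl | hk
  · exfalso
    apply ha
    rw [← hcentre, mem_sheetCentre]
    rw [pow_zero, one_mul] at h
    rw [← h]
    exact mul_mem_nonunits_right V hfV (mem_sheet_of_mem_chart w B hB hV b.2)
  · obtain ⟨d, rfl⟩ : ∃ d, k = d + 1 := ⟨k - 1, by omega⟩
    exact ⟨d, a, b, ha, hb, h⟩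

/-- **Discreteness of the sheets** (`BaseConclusion.discrete`). -/
theorem sheet_discrete [IsNoetherianRing R] (w : R) (hw : Prime w)
    (hinj : Function.Injective (algebraMap R F)) {x : F}
    (B : Subalgebra R F)
    (hB : ∀ f : F, f ∈ B ↔ IsIntegral (Algebra.adjoin R ({x} : Set F)) f)
    (halg : ∀ f : F, IsAlgebraic (Algebra.adjoin R ({x} : Set F)) f)
    (c : SSChart w B) {V : ValuationSubring F} (hV : IsSheet w x V) {f : F} (hf : f ≠ 0) :
    ∃ (n : ℤ) (u : F), u ∈ V ∧ u⁻¹ ∈ V ∧ f = algebraMap R F w ^ n * u := by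
  have hwF0 : algebraMap R F w ≠ 0 := fun h => hw.ne_zero (hinj (by rw [h, map_zero]))
  have key : ∀ p p' : Ideal B, sheetCentre w B hB hV = p →
      p ⊓ p' = Ideal.span {algebraMap R B w} → ¬ p' ≤ p →
      ∃ (n : ℤ) (u : F), u ∈ V ∧ u⁻¹ ∈ V ∧ f = algebraMap R F w ^ n * u := by
    intro p p' hcentre hinf hnle
    obtain ⟨i, j, a, b, ha, hb, h⟩ := exists_nf w hw hinj B hB halg hV p p' hcentre hinf hnle hf
    rw [← hcentre] at ha hb
    obtain ⟨ha0, hainv⟩ := inv_mem_of_not_mem_centre w B hB hV ha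
    obtain ⟨hb0, hbinv⟩ := inv_mem_of_not_mem_centre w B hB hV hb
    refine ⟨(i : ℤ) - j, (a : F) * (b : F)⁻¹,
      V.mul_mem _ _ (mem_sheet_of_mem_chart w B hB hV a.2) hbinv, ?_, ?_⟩
    · rw [mul_inv, inv_inv]
      exact V.mul_mem _ _ hainv (mem_sheet_of_mem_chart w B hB hV b.2)
    · rw [zpow_sub₀ hwF0, zpow_natCast, zpow_natCast]
      field_simp
      linear_combination h
  rcases sheetCentre_eq w B hB c hV with h | h
  · exact key c.p₁ c.p₂ h c.inf_eq c.not_le₂₁
  · exact key c.p₂ c.p₁ h (by rw [inf_comm]; exact c.inf_eq) c.not_le₁₂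

/-- A sheet is contained in every sheet with the same centre. -/
theorem sheet_le_of_centre_eq [IsNoetherianRing R] (w : R) (hw : Prime w)
    (hinj : Function.Injective (algebraMap R F)) {x : F}
    (B : Subalgebra R F)
    (hB : ∀ f : F, f ∈ B ↔ IsIntegral (Algebra.adjoin R ({x} : Set F)) f)
    (halg : ∀ f : F, IsAlgebraic (Algebra.adjoin R ({x} : Set F)) f)
    (c : SSChart w B) {V V' : ValuationSubring F} (hV : IsSheet w x V) (hV' : IsSheet w x V')
    (h : sheetCentre w B hB hV = sheetCentre w B hB hV') : V ≤ V' := by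
  have key : ∀ p p' : Ideal B, sheetCentre w B hB hV = p →
      p ⊓ p' = Ideal.span {algebraMap R B w} → ¬ p' ≤ p → V ≤ V' := by
    intro p p' hcentre hinf hnle f hfV
    by_cases hf : f = 0
    · rw [hf]
      exact V'.zero_mem
    obtain ⟨k, a, b, ha, hb, hfab⟩ :=
      exists_nf_of_mem w hw hinj B hB halg hV p p' hcentre hinf hnle hf hfV
    rw [← hcentre, h] at hb
    obtain ⟨hb0, hbinv⟩ := inv_mem_of_not_mem_centre w B hB hV' hb
    have : f = algebraMap R F w ^ k * (a : F) * (b : F)⁻¹ := by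
      rw [← hfab, mul_assoc, mul_inv_cancel₀ hb0, mul_one]
    rw [this]
    exact V'.mul_mem _ _ (V'.mul_mem _ _ (pow_mem (hV'.1 w) k)
      (mem_sheet_of_mem_chart w B hB hV' a.2)) hbinv
  rcases sheetCentre_eq w B hB c hV with h1 | h1
  · exact key c.p₁ c.p₂ h1 c.inf_eq c.not_le₂₁
  · exact key c.p₂ c.p₁ h1 (by rw [inf_comm]; exact c.inf_eq) c.not_le₁₂

/-- **A sheet is determined by its centre.** -/
theorem sheet_eq_of_centre_eq [IsNoetherianRing R] (w : R) (hw : Prime w)
    (hinj : Function.Injective (algebraMap R F)) {x : F}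
    (B : Subalgebra R F)
    (hB : ∀ f : F, f ∈ B ↔ IsIntegral (Algebra.adjoin R ({x} : Set F)) f)
    (halg : ∀ f : F, IsAlgebraic (Algebra.adjoin R ({x} : Set F)) f)
    (c : SSChart w B) {V V' : ValuationSubring F} (hV : IsSheet w x V) (hV' : IsSheet w x V')
    (h : sheetCentre w B hB hV = sheetCentre w B hB hV') : V = V' :=
  le_antisymm (sheet_le_of_centre_eq w hw hinj B hB halg c hV hV' h)
    (sheet_le_of_centre_eq w hw hinj B hB halg c hV' hV h.symm)

/-- **`F` has at most two sheets.** -/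
theorem sheets_finite [IsNoetherianRing R] (w : R) (hw : Prime w)
    (hinj : Function.Injective (algebraMap R F)) {x : F}
    (B : Subalgebra R F)
    (hB : ∀ f : F, f ∈ B ↔ IsIntegral (Algebra.adjoin R ({x} : Set F)) f)
    (halg : ∀ f : F, IsAlgebraic (Algebra.adjoin R ({x} : Set F)) f)
    (c : SSChart w B) : {V : ValuationSubring F | IsSheet w x V}.Finite := by
  classical
  let g : ValuationSubring F → Ideal B := fun V =>
    if hV : IsSheet w x V then sheetCentre w B hB hV else ⊥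
  have hg : ∀ V (hV : IsSheet w x V), g V = sheetCentre w B hB hV := fun V hV => dif_pos hV
  refine Set.Finite.of_finite_image (f := g) ?_ ?_
  · refine Set.Finite.subset (Set.toFinite {c.p₁, c.p₂}) ?_
    rintro _ ⟨V, hV, rfl⟩
    rw [hg V hV]
    rcases sheetCentre_eq w B hB c hV with h | h
    · exact Or.inl h
    · exact Or.inr h
  · intro V hV V' hV' h
    rw [hg V hV, hg V' hV'] at h
    exact sheet_eq_of_centre_eq w hw hinj B hB halg c hV hV' h

end Classify

end Fermat.Agent.A2.H652
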