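import Fermat.Agent.A2.H313.Const
import Fermat.Agent.A2.H652.BaseSheets

/-!
# Cell A2, route G — the leaf BASE (helper652)

`baseLeaf : H12.BaseLeaf` (statement of `A2/H12/AlgLeaves.lean`, verbatim), and
`sheets_finite_of_ctx` : `F` has finitely many (at most two) sheets.

* `exists_sheet` : the valuation subring centred at `p₁` (`RedBase.lean`);
* `discrete`     : `sheet_discrete` (`BaseSheets.lean`);
* `stable`       : `sheet_stable` below: every element of a sheet `V` has a denominator in `B`
  which is a unit of `V`, and `τ ≡ id` modulo `w` on `B`.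
-/

set_option autoImplicit false
set_option linter.style.haveILetI false
set_option linter.unusedSectionVars false
set_option linter.unusedVariables false

namespace Fermat.Agent.A2.H652

open Polynomial
open Fermat.Agent.A2 Fermat.Agent.A2.H12
open Fermat.Agent.S18.H138 (chart mem_chart mem_adjoin_singleton_iff baseField
  adjoin_le_baseField exists_div_of_mem_baseField)

section Alg

variable {R : Type*} [CommRing R] [IsDomain R] {F : Type*} [Field F] [Algebra R F]

/-- `F` finite over the field generated by `R` and `x` implies `F` algebraic over `R[x]`. -/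
theorem isAlgebraic_adjoin_of_finiteDimensional (x : F) [FiniteDimensional (baseField R x) F]
    (f : F) : IsAlgebraic (Algebra.adjoin R ({x} : Set F)) f := by
  let φ : Algebra.adjoin R ({x} : Set F) →+* baseField R x :=
    { toFun := fun a => ⟨a, adjoin_le_baseField x a.2⟩
      map_one' := rfl
      map_mul' := fun _ _ => rfl
      map_zero' := rfl
      map_add' := fun _ _ => rfl }
  letI : Algebra (Algebra.adjoin R ({x} : Set F)) (baseField R x) := φ.toAlgebra
  haveI : IsScalarTower (Algebra.adjoin R ({x} : Set F)) (baseField R x) F :=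
    IsScalarTower.of_algebraMap_eq (fun _ => rfl)
  have hinj : Function.Injective
      (algebraMap (Algebra.adjoin R ({x} : Set F)) (baseField R x)) := by
    intro a b hab
    have : (a : F) = b := congrArg (fun t : baseField R x => (t : F)) hab
    exact Subtype.ext this
  haveI : FaithfulSMul (Algebra.adjoin R ({x} : Set F)) (baseField R x) :=
    (faithfulSMul_iff_algebraMap_injective _ _).2 hinj
  haveI : IsFractionRing (Algebra.adjoin R ({x} : Set F)) (baseField R x) := by
    refine IsFractionRing.of_field _ _ (fun z => ?_)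
    obtain ⟨a, ha, b, hb, h⟩ := exists_div_of_mem_baseField (R := R) x z.2
    exact ⟨⟨a, ha⟩, ⟨b, hb⟩, Subtype.ext h⟩
  exact (IsFractionRing.isAlgebraic_iff (Algebra.adjoin R ({x} : Set F)) (baseField R x) F).2
    (Algebra.IsAlgebraic.isAlgebraic f)

end Alg

section Stable

universe u

variable {R : Type u} [CommRing R] [IsDomain R] {F : Type u} [Field F] [Algebra R F]

/-- Every element of a sheet has a denominator in `B` which is a unit of the sheet
(`V` is the localisation of `B` at its centre). -/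
theorem exists_denominator [IsNoetherianRing R] (w : R) (hw : Prime w)
    (hinj : Function.Injective (algebraMap R F)) {x : F}
    (B : Subalgebra R F)
    (hB : ∀ f : F, f ∈ B ↔ IsIntegral (Algebra.adjoin R ({x} : Set F)) f)
    (halg : ∀ f : F, IsAlgebraic (Algebra.adjoin R ({x} : Set F)) f)
    (c : SSChart w B) {V : ValuationSubring F} (hV : IsSheet w x V) {f : F} (hfV : f ∈ V) :
    ∃ b ∈ B, b ∉ V.nonunits ∧ f * b ∈ B := by
  by_cases hf : f = 0
  · exact ⟨1, B.one_mem, one_not_mem_nonunits V, by rw [hf, zero_mul]; exact B.zero_mem⟩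
  have key : ∀ p p' : Ideal B, sheetCentre w B hB hV = p →
      p ⊓ p' = Ideal.span {algebraMap R B w} → ¬ p' ≤ p →
      ∃ b ∈ B, b ∉ V.nonunits ∧ f * b ∈ B := by
    intro p p' hcentre hinf hnle
    obtain ⟨k, a, b, ha, hb, hfab⟩ :=
      exists_nf_of_mem w hw hinj B hB halg hV p p' hcentre hinf hnle hf hfV
    rw [← hcentre, mem_sheetCentre] at hb
    refine ⟨b, b.2, hb, ?_⟩
    rw [hfab]
    exact B.mul_mem (B.pow_mem (B.algebraMap_mem w) k) a.2
  rcases sheetCentre_eq w B hB c hV with h1 | h1
  · exact key c.p₁ c.p₂ h1 c.inf_eq c.not_le₂₁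
  · exact key c.p₂ c.p₁ h1 (by rw [inf_comm]; exact c.inf_eq) c.not_le₁₂

/-- **Stability of the sheets** (`BaseConclusion.stable`): an automorphism `τ` of `F` with
`τ ≡ id` modulo `w` on the chart `B` preserves every sheet and acts trivially on its residue
field. -/
theorem sheet_stable [IsNoetherianRing R] (w : R) (hw : Prime w)
    (hinj : Function.Injective (algebraMap R F)) {x : F}
    (B : Subalgebra R F)
    (hB : ∀ f : F, f ∈ B ↔ IsIntegral (Algebra.adjoin R ({x} : Set F)) f)
    (halg : ∀ f : F, IsAlgebraic (Algebra.adjoin R ({x} : Set F)) f)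
    (c : SSChart w B) (τ : F ≃+* F)
    (hτB : ∀ b ∈ B, ∃ c ∈ B, τ b - b = algebraMap R F w * c)
    {V : ValuationSubring F} (hV : IsSheet w x V) (f : F) :
    (f ∈ V ↔ τ f ∈ V) ∧ (f ∈ V → τ f - f ∈ V.nonunits) := by
  have hBV : ∀ b ∈ B, b ∈ V := fun b hb => mem_sheet_of_mem_chart w B hB hV hb
  -- `τ ≡ id` modulo `𝔪_V` on `B`
  have h1 : ∀ b ∈ B, τ b - b ∈ V.nonunits := by
    intro b hb
    obtain ⟨c', hc', h⟩ := hτB b hb
    rw [h]
    exact mul_mem_nonunits_right V hV.2.2.1 (hBV c' hc')
  have h2 : ∀ b ∈ B, τ b ∈ V := by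
    intro b hb
    have : τ b = (τ b - b) + b := by ring
    rw [this]
    exact V.add_mem _ _ (mem_of_mem_nonunits V (h1 b hb)) (hBV b hb)
  have h3 : ∀ b ∈ B, b ∈ V.nonunits → τ b ∈ V.nonunits := by
    intro b hb hbn
    have : τ b = (τ b - b) + b := by ring
    rw [this]
    exact V.nonunits.add_mem (h1 b hb) hbn
  have h4 : ∀ b ∈ B, b ∉ V.nonunits → τ b ≠ 0 ∧ (τ b)⁻¹ ∈ V := by
    intro b hb hbn
    have h5 : τ b ∉ V.nonunits := by
      intro h
      apply hbn
      have : b = τ b - (τ b - b) := by ring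
      rw [this]
      exact V.nonunits.sub_mem h (h1 b hb)
    rw [ValuationSubring.mem_nonunits_iff_or] at h5
    push Not at h5
    exact h5
  -- `τ V ⊆ V`
  have h6 : ∀ g ∈ V, τ g ∈ V := by
    intro g hg
    obtain ⟨b, hb, hbn, hgb⟩ := exists_denominator w hw hinj B hB halg c hV hg
    obtain ⟨hτb0, hτbinv⟩ := h4 b hb hbn
    have : τ g = τ (g * b) * (τ b)⁻¹ := by
      rw [map_mul, mul_assoc, mul_inv_cancel₀ hτb0, mul_one]
    rw [this]
    exact V.mul_mem _ _ (h2 _ hgb) hτbinv
  -- `τ 𝔪_V ⊆ 𝔪_V`
  have h7 : ∀ g ∈ V.nonunits, τ g ∈ V.nonunits := by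
    intro g hg
    obtain ⟨b, hb, hbn, hgb⟩ :=
      exists_denominator w hw hinj B hB halg c hV (mem_of_mem_nonunits V hg)
    obtain ⟨hτb0, hτbinv⟩ := h4 b hb hbn
    have : τ g = τ (g * b) * (τ b)⁻¹ := by
      rw [map_mul, mul_assoc, mul_inv_cancel₀ hτb0, mul_one]
    rw [this]
    exact mul_mem_nonunits_right V (h3 _ hgb (mul_mem_nonunits_right V hg (hBV b hb))) hτbinv
  refine ⟨⟨h6 f, fun hτf => ?_⟩, fun hfV => ?_⟩
  · by_contra hfV
    have hf0 : f ≠ 0 := by
      rintro rfl
      exact hfV V.zero_mem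
    have h8 : f⁻¹ ∈ V.nonunits := (ValuationSubring.inv_mem_nonunits_iff V).2 (Or.inr hfV)
    have h9 := h7 _ h8
    rw [map_inv₀] at h9
    have h10 := mul_mem_nonunits_left V hτf h9
    rw [mul_inv_cancel₀ ((map_ne_zero τ).2 hf0)] at h10
    exact one_not_mem_nonunits V h10
  · obtain ⟨b, hb, hbn, hfb⟩ := exists_denominator w hw hinj B hB halg c hV hfV
    obtain ⟨hτb0, hτbinv⟩ := h4 b hb hbn
    have : τ f - f = ((τ (f * b) - f * b) - f * (τ b - b)) * (τ b)⁻¹ := by
      rw [map_mul]
      field_simp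
      ring
    rw [this]
    refine mul_mem_nonunits_right V ?_ hτbinv
    exact V.nonunits.sub_mem (h1 _ hfb) (mul_mem_nonunits_left V hfV (h1 b hb))

end Stable

section Leaf

/-- `F` is algebraic over `R[x]` in the context of `AlgSSStatement`. -/
theorem isAlgebraic_of_ctx {R E F : Type} [CommRing R] [IsDomain R]
    [IsDiscreteValuationRing R] [HenselianLocalRing R] [IsAlgClosed (IsLocalRing.ResidueField R)]
    [Field E] [CharZero E] [Algebra R E] [IsFractionRing R E]
    [Field F] [Algebra E F] [Algebra R F] [IsScalarTower R E F]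
    {w : R} {q m : ℕ} {x : F} {Bf Bi : Subalgebra R F}
    {τ : F ≃+* F} {τE : E ≃+* E} {τR : R ≃+* R} (ctx : SSCtx w q m x Bf Bi τ τE τR) (f : F) :
    IsAlgebraic (Algebra.adjoin R ({x} : Set F)) f := by
  haveI := ctx.fin
  haveI : FiniteDimensional (baseField R x) F :=
    Fermat.Agent.A2.H313.finiteDimensional_baseField_of_adjoin E x
  exact isAlgebraic_adjoin_of_finiteDimensional x f

/-- **`F` has finitely many sheets** (at most two), in the context of `AlgSSStatement`. -/
theorem sheets_finite_of_ctx {R E F : Type} [CommRing R] [IsDomain R]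
    [IsDiscreteValuationRing R] [HenselianLocalRing R] [IsAlgClosed (IsLocalRing.ResidueField R)]
    [Field E] [CharZero E] [Algebra R E] [IsFractionRing R E]
    [Field F] [Algebra E F] [Algebra R F] [IsScalarTower R E F]
    {w : R} {q m : ℕ} {x : F} {Bf Bi : Subalgebra R F}
    {τ : F ≃+* F} {τE : E ≃+* E} {τR : R ≃+* R} (ctx : SSCtx w q m x Bf Bi τ τE τR) :
    {V : ValuationSubring F | IsSheet w x V}.Finite := by
  have hinjRE : Function.Injective (algebraMap R E) := IsFractionRing.injective R E
  have hinj : Function.Injective (algebraMap R F) := by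
    rw [IsScalarTower.algebraMap_eq R E F]
    exact (algebraMap E F).injective.comp hinjRE
  obtain ⟨cf⟩ := ctx.cf
  exact sheets_finite w ctx.irr.prime hinj Bf ctx.hBf (isAlgebraic_of_ctx ctx) cf

/-- **Leaf BASE.** -/
theorem baseLeaf : BaseLeaf := by
  intro R E F _ _ _ _ _ _ _ _ _ _ _ _ _ w q m x Bf Bi τ τE τR ctx
  have hinjRE : Function.Injective (algebraMap R E) := IsFractionRing.injective R E
  have hinj : Function.Injective (algebraMap R F) := by
    rw [IsScalarTower.algebraMap_eq R E F]
    exact (algebraMap E F).injective.comp hinjRE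
  have hxR : Transcendental R x := ctx.transc.restrictScalars hinjRE
  have hw : Prime w := ctx.irr.prime
  have halg := isAlgebraic_of_ctx ctx
  obtain ⟨cf⟩ := ctx.cf
  refine ⟨?_, ?_, ?_⟩
  · haveI := cf.prime₁
    obtain ⟨V, hBV, hV⟩ := exists_valuationSubring_center Bf cf.p₁
    exact ⟨V, isSheet_of_center w hw hxR Bf ctx.hBf cf.p₁ cf.p₂ cf.inf_eq cf.not_le₂₁ V hBV hV⟩
  · intro V hV c
    exact sheet_stable w hw hinj Bf ctx.hBf halg cf τ ctx.hτf hV c
  · intro V hV f hf
    exact sheet_discrete w hw hinj Bf ctx.hBf halg cf hV hf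

end Leaf

end Fermat.Agent.A2.H652
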