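import Fermat.Agent.A2.H652.RedBase

/-!
# Cell A2, route G — the leaf RED (helper652)

`redLeaf_of_sheets : SheetsLeaf → RedLeaf` (statements of `A2/H12/AlgLeaves.lean`, verbatim).

Only the fields `unif` (`e = 1`) and `exists_over` of `SheetsConclusion` are used.
Proof: `baseRed_of_ssChart` (base step: going down + valuation subrings centred at the two
components of the semistable charts) and `redConclusion_of_baseRed` (cover step: `coverRed`,
the coefficients of the minimal polynomial of `b / w` over `F`).
-/

set_option autoImplicit false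
set_option linter.style.haveILetI false

namespace Fermat.Agent.A2.H652

open Fermat.Agent.A2 Fermat.Agent.A2.H12

/-- `RedConclusion` for a Kummer-split cover, from `SheetsConclusion` for the same cover. -/
theorem redConclusion_of_sheetsConclusion {R E F : Type} [CommRing R] [IsDomain R]
    [IsDiscreteValuationRing R] [HenselianLocalRing R] [IsAlgClosed (IsLocalRing.ResidueField R)]
    [Field E] [CharZero E] [Algebra R E] [IsFractionRing R E]
    [Field F] [Algebra E F] [Algebra R F] [IsScalarTower R E F]
    (w : R) (q m : ℕ) (x : F) (Bf Bi : Subalgebra R F)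
    (τ : F ≃+* F) (τE : E ≃+* E) (τR : R ≃+* R) (ctx : SSCtx w q m x Bf Bi τ τE τR)
    (L : Type) [Field L] [Algebra F L] [Algebra R L] [IsScalarTower R F L]
    (hK : IsKummerSplit L w x m) (hS : SheetsConclusion L w x) : RedConclusion L w x := by
  haveI := hK.finite
  haveI := hK.galois
  have hinjRE : Function.Injective (algebraMap R E) := IsFractionRing.injective R E
  have hinj : Function.Injective (algebraMap R F) := by
    rw [IsScalarTower.algebraMap_eq R E F]
    exact (algebraMap E F).injective.comp hinjRE
  have hxR : Transcendental R x := ctx.transc.restrictScalars hinjRE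
  have hw : Prime w := ctx.irr.prime
  have hW0 : algebraMap R F w ≠ 0 := by
    intro h0
    exact ctx.irr.ne_zero (hinj (by rw [h0, map_zero]))
  obtain ⟨cf⟩ := ctx.cf
  obtain ⟨ci⟩ := ctx.ci
  exact redConclusion_of_baseRed w x hW0 hS
    (baseRed_of_ssChart w hw hxR Bf Bi ctx.hBf ctx.hBi cf ci)

/-- **Leaf RED**, from the leaf SHEETS. -/
theorem redLeaf_of_sheets (hSheets : SheetsLeaf) : RedLeaf := by
  intro R E F _ _ _ _ _ _ _ _ _ _ _ _ _ w q m x Bf Bi τ τE τR ctx L _ _ _ _ hK
  exact redConclusion_of_sheetsConclusion w q m x Bf Bi τ τE τR ctx L hK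
    (hSheets w q m x Bf Bi τ τE τR ctx L hK)

end Fermat.Agent.A2.H652
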