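import Fermat.Agent.A2.H12.AlgLeavesU
import Fermat.Agent.A2.H652.RedLeaf

/-!
# Cell A2, route G — the corrected leaf RED (helper652)

`redLeafU_of_sheetsU : SheetsLeafU → RedLeafU` (statements of `A2/H12/AlgLeavesU.lean`, verbatim).
Only the fields `unif` and `exists_over` of `SheetsConclusion` are used, see `RedLeaf.lean`.
-/

set_option autoImplicit false

namespace Fermat.Agent.A2.H652

open Fermat.Agent.A2 Fermat.Agent.A2.H12

/-- **Leaf RED (corrected hub)**, from the leaf SHEETS. -/
theorem redLeafU_of_sheetsU (hSheets : SheetsLeafU) : RedLeafU := by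
  intro R E F _ _ _ _ _ _ _ _ _ _ _ _ _ w q m x Bf Bi τ τE τR ctx L _ _ _ _ hK
  exact redConclusion_of_sheetsConclusion w q m x Bf Bi τ τE τR ctx L hK.isKummerSplit
    (hSheets w q m x Bf Bi τ τE τR ctx L hK)

end Fermat.Agent.A2.H652
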